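import Fermat.Agent.S52.H311.Par

/-!
# The degree height on points with rational `x`-coordinate (S52, piece A2a, API)
-/

set_option autoImplicit false

namespace Fermat.Agent.S52.H311

open Polynomial WeierstrassCurve WeierstrassCurve.Affine

variable {F : Type*} [Field F] {K : Type*} [Field K] [Algebra F K]
variable {j : F[X] →ₐ[F] K} {W' : Affine K}

lemma isXRep_zero : IsXRep j (0 : W'.Point) 1 0 :=
  ⟨isCoprime_one_left, 1, one_ne_zero, by simp [Point.xRep_zero]⟩

lemma isXRep_some {x y : K} (h : W'.Nonsingular x y) {a b : F[X]} (hab : IsCoprime a b)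
    (hb : j b ≠ 0) (hx : x * j b = j a) : IsXRep j (Point.some x y h) a b := by
  refine ⟨hab, j b, hb, ?_⟩
  rw [Point.xRep_some]
  funext k
  fin_cases k
  · simp [← hx, mul_comm]
  · simp

/-- pairs of coprime polynomials which are proportional have the same degree -/
lemma pairDeg_eq_of_cross {a b a' b' : F[X]} (h : IsCoprime a b) (h' : IsCoprime a' b')
    (hc : a * b' = a' * b) : pairDeg a b = pairDeg a' b' := by
  -- apply the triple statement to `(a, b) * (1, 0)`
  have key := maxDeg_eq_of_proportional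
    (isPrim_prodTriple h (isCoprime_one_left (x := (0 : F[X]))))
    (isPrim_prodTriple h' (isCoprime_one_left (x := (0 : F[X])))) (fun i k => by
      fin_cases i <;> fin_cases k <;> simp [prodTriple] <;>
        first | linear_combination hc | linear_combination -hc)
  rw [maxDeg_prodTriple h isCoprime_one_left, maxDeg_prodTriple h' isCoprime_one_left] at key
  simpa [pairDeg] using key

lemma pairDeg_eq_of_isXRep (hj : Function.Injective j) {P : W'.Point} {a b a' b' : F[X]}
    (h : IsXRep j P a b) (h' : IsXRep j P a' b') : pairDeg a b = pairDeg a' b' := by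
  refine pairDeg_eq_of_cross h.1 h'.1 (hj ?_)
  obtain ⟨-, c, hc, e⟩ := h
  obtain ⟨-, c', hc', e'⟩ := h'
  have e0 : j a = c * P.xRep 0 := by simpa using congrFun e 0
  have e1 : j b = c * P.xRep 1 := by simpa using congrFun e 1
  have e0' : j a' = c' * P.xRep 0 := by simpa using congrFun e' 0
  have e1' : j b' = c' * P.xRep 1 := by simpa using congrFun e' 1
  rw [map_mul, map_mul, e0, e1, e0', e1']
  ring

open Classical in
/-- the degree height of a point (`0` if the `x`-coordinate is not represented) -/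
noncomputable def hgt (j : F[X] →ₐ[F] K) (P : W'.Point) : ℕ :=
  if h : ∃ ab : F[X] × F[X], IsXRep j P ab.1 ab.2 then
    pairDeg (Classical.choose h).1 (Classical.choose h).2
  else 0

lemma hgt_eq (hj : Function.Injective j) {P : W'.Point} {a b : F[X]} (h : IsXRep j P a b) :
    hgt j P = pairDeg a b := by
  have hex : ∃ ab : F[X] × F[X], IsXRep j P ab.1 ab.2 := ⟨(a, b), h⟩
  rw [hgt, dif_pos hex]
  exact pairDeg_eq_of_isXRep hj (Classical.choose_spec hex) h

lemma hgt_zero (hj : Function.Injective j) : hgt j (0 : W'.Point) = 0 := by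
  rw [hgt_eq hj isXRep_zero]
  simp [pairDeg]

/-- **Exact parallelogram law for the degree height.** -/
theorem hgt_add_sub {W : WeierstrassCurve F} [W.IsElliptic] [DecidableEq K]
    (hj : Function.Injective j) {P Q : (W.toAffine⁄K).Point}
    (hP : ∃ a b, IsXRep j P a b) (hQ : ∃ a b, IsXRep j Q a b)
    (hS : ∃ a b, IsXRep j (P + Q) a b) (hD : ∃ a b, IsXRep j (P - Q) a b) :
    hgt j (P + Q) + hgt j (P - Q) = 2 * hgt j P + 2 * hgt j Q := by
  obtain ⟨a₁, b₁, h₁⟩ := hP
  obtain ⟨a₂, b₂, h₂⟩ := hQ
  obtain ⟨a₃, b₃, h₃⟩ := hS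
  obtain ⟨a₄, b₄, h₄⟩ := hD
  rw [hgt_eq hj h₁, hgt_eq hj h₂, hgt_eq hj h₃, hgt_eq hj h₄,
    pairDeg_add_sub hj h₁ h₂ h₃ h₄]
  ring

end Fermat.Agent.S52.H311
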