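import Mathlib.AlgebraicGeometry.EllipticCurve.Affine.AddSubMap
import Fermat.Agent.S05.XId

/-!
# `sym2x (P + Q) (P - Q)` is projectively `addSubMap (sym2x P Q)`  (S52, piece A2a-points)

For nonsingular points `P`, `Q` on a Weierstrass curve over a field (no ellipticity needed)
the Mathlib map `WeierstrassCurve.addSubMap` sends the coordinate vector `P.sym2x Q` of
`(x(P) x(Q) : x(P) + x(Q) : 1)` to a nonzero multiple of `(P + Q).sym2x (P - Q)`.
-/

set_option autoImplicit false

namespace Fermat.Agent.S52.H311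

open WeierstrassCurve WeierstrassCurve.Affine MvPolynomial
open Fermat.Agent.S05

variable {F : Type*} [Field F] (W : Affine F)

/-- the three coordinates of `addSubMap` evaluated at a vector -/
lemma eval_addSubMap (v : Fin 3 → F) :
    (fun i => (addSubMap W i).eval v) =
      ![v 0 ^ 2 - W.b₄ * v 0 * v 2 - W.b₆ * v 1 * v 2 - W.b₈ * v 2 ^ 2,
        2 * v 1 * v 0 + W.b₂ * v 0 * v 2 + W.b₄ * v 1 * v 2 + W.b₆ * v 2 ^ 2,
        v 1 ^ 2 - 4 * v 0 * v 2] := by
  funext i
  fin_cases i <;> simp [addSubMap]

/-- on the curve, `dblNum = n² + a₁ d n - (a₂ + 2x) d²` with `n` the numerator of the tangent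
slope and `d = y - negY x y`. -/
lemma dblNum_eq {x y : F} (h : W.Equation x y) :
    XId.dblNum W x = (3 * x ^ 2 + 2 * W.a₂ * x + W.a₄ - W.a₁ * y) ^ 2 +
      W.a₁ * (y - W.negY x y) * (3 * x ^ 2 + 2 * W.a₂ * x + W.a₄ - W.a₁ * y) -
      (W.a₂ + x + x) * (y - W.negY x y) ^ 2 := by
  rw [Affine.equation_iff] at h
  simp only [negY, XId.dblNum, WeierstrassCurve.b₄, WeierstrassCurve.b₆, WeierstrassCurve.b₈]
  linear_combination (8 * x + W.a₁ ^ 2 + 4 * W.a₂) * h

/-- at a nonsingular 2-torsion point the duplication numerator does not vanish -/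
lemma dblNum_ne_zero_of_Y_eq {x y : F} (h : W.Nonsingular x y) (hy : y = W.negY x y) :
    XId.dblNum W x ≠ 0 := by
  have hd : y - W.negY x y = 0 := sub_eq_zero.mpr hy
  rw [dblNum_eq W h.1, hd]
  have hn : 3 * x ^ 2 + 2 * W.a₂ * x + W.a₄ - W.a₁ * y ≠ 0 := by
    rcases (Affine.nonsingular_iff' ..).mp h with ⟨_, h1 | h2⟩
    · intro h0; apply h1; linear_combination -h0
    · exfalso; apply h2; simp only [negY] at hd; linear_combination hd
  simpa using pow_ne_zero 2 hn

variable [DecidableEq F]
variable {W}

/-- **Addition–subtraction on `x`-coordinates.**  For all nonsingular points `P`, `Q` of a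
Weierstrass curve over a field, `addSubMap` maps `P.sym2x Q` to a nonzero multiple of
`(P + Q).sym2x (P - Q)`. -/
theorem sym2x_add_sub (P Q : W.Point) :
    ∃ c : F, c ≠ 0 ∧
      (fun i => (addSubMap W i).eval (P.sym2x Q)) = c • (P + Q).sym2x (P - Q) := by
  rw [eval_addSubMap]
  rcases P with _ | ⟨x₁, y₁, h₁⟩ <;> rcases Q with _ | ⟨x₂, y₂, h₂⟩
  · -- `0, 0`
    refine ⟨1, one_ne_zero, ?_⟩
    simp [← Point.zero_def]
  · -- `0, Q`
    refine ⟨1, one_ne_zero, ?_⟩
    rw [← Point.zero_def, zero_add, zero_sub, Point.sym2x_neg_right]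
    simp only [Point.sym2x_zero_some, Point.sym2x_some_some, one_smul]
    funext i; fin_cases i <;> simp <;> ring
  · -- `P, 0`
    refine ⟨1, one_ne_zero, ?_⟩
    rw [← Point.zero_def, add_zero, sub_zero]
    simp only [Point.sym2x_some_zero, Point.sym2x_some_some, one_smul]
    funext i; fin_cases i <;> simp <;> ring
  · by_cases hx : x₁ = x₂
    · subst hx
      by_cases hy : y₁ = W.negY x₁ y₂
      · -- `Q = -P`
        have hPQ : Point.some x₁ y₁ h₁ + Point.some x₁ y₂ h₂ = 0 := Point.add_of_Y_eq rfl hy
        have hQ : Point.some x₁ y₂ h₂ = -Point.some x₁ y₁ h₁ := by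
          rw [eq_neg_iff_add_eq_zero, add_comm]; exact hPQ
        rw [hPQ, hQ, sub_neg_eq_add]
        by_cases h2 : y₁ = W.negY x₁ y₁
        · -- `P` is 2-torsion
          have h2P : Point.some x₁ y₁ h₁ + Point.some x₁ y₁ h₁ = 0 := Point.add_of_Y_eq rfl h2
          refine ⟨XId.dblNum W x₁, dblNum_ne_zero_of_Y_eq W h₁ h2, ?_⟩
          rw [h2P, Point.sym2x_neg_right]
          have hden := XId.dblDen_eq_zero_of_Y_eq h₁.1 h2
          simp only [Point.sym2x_some_some, Point.sym2x_zero_zero]
          simp only [XId.dblNum, XId.dblDen] at hden ⊢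
          funext i; fin_cases i
          · simp; ring
          · simp; linear_combination hden
          · simp; ring
        · obtain ⟨x', y', h', hadd, hmul, hne⟩ := XId.add_self_some h₁ h2
          refine ⟨XId.dblDen W x₁, hne, ?_⟩
          rw [hadd, Point.sym2x_neg_right]
          simp only [Point.sym2x_some_some, Point.sym2x_zero_some]
          simp only [XId.dblNum, XId.dblDen] at hmul ⊢
          funext i; fin_cases i
          · simp; linear_combination -hmul
          · simp; ring
          · simp; ring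
      · -- `Q = P`, not 2-torsion
        have hyy : y₁ = y₂ := by
          rcases Affine.Y_eq_of_X_eq h₁.1 h₂.1 rfl with h | h
          · exact h
          · exact absurd h hy
        subst hyy
        obtain ⟨x', y', h', hadd, hmul, hne⟩ := XId.add_self_some h₁ hy
        refine ⟨XId.dblDen W x₁, hne, ?_⟩
        rw [hadd, sub_self]
        simp only [Point.sym2x_some_some, Point.sym2x_some_zero]
        simp only [XId.dblNum, XId.dblDen] at hmul ⊢
        funext i; fin_cases i
        · simp; linear_combination -hmul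
        · simp; ring
        · simp; ring
    · obtain ⟨x₃, y₃, x₄, y₄, h₃, h₄, hadd, hsub, hsum, hprod⟩ := XId.add_sub_some h₁ h₂ hx
      refine ⟨(x₁ - x₂) ^ 2, pow_ne_zero 2 (sub_ne_zero.mpr hx), ?_⟩
      rw [hadd, hsub]
      simp only [Point.sym2x_some_some]
      simp only [XId.sumNum, XId.prodNum] at hsum hprod
      funext i; fin_cases i
      · simp; linear_combination -hprod
      · simp; linear_combination -hsum
      · simp; ring

end Fermat.Agent.S52.H311
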