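import Mathlib.AlgebraicGeometry.EllipticCurve.Affine.AddSubMap
import Mathlib.RingTheory.Polynomial.Basic
import Mathlib.RingTheory.Ideal.Operations
import Mathlib.Algebra.Polynomial.Degree.Lemmas

/-!
# Exact degree doubling for `addSubMap` on primitive polynomial triples (S52, A2a core)

`F` a field, `W` an elliptic curve over `F`.  For a triple `p : Fin 3 → F[X]` generating the unit
ideal, the triple `q = addSubMap W (p)` again generates the unit ideal and
`maxDeg q = 2 * maxDeg p`.  Also the Gauss lemma for the product of two linear forms.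
-/

set_option autoImplicit false

namespace Fermat.Agent.S52.H311

open Polynomial WeierstrassCurve

variable {F : Type*} [Field F]

/-- maximal `natDegree` of the entries of a triple -/
noncomputable def maxDeg (p : Fin 3 → F[X]) : ℕ :=
  max (p 0).natDegree (max (p 1).natDegree (p 2).natDegree)

lemma natDegree_le_maxDeg (p : Fin 3 → F[X]) (i : Fin 3) : (p i).natDegree ≤ maxDeg p := by
  fin_cases i <;> simp [maxDeg]

lemma maxDeg_le {p : Fin 3 → F[X]} {n : ℕ} (h : ∀ i, (p i).natDegree ≤ n) : maxDeg p ≤ n := by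
  simp only [maxDeg, max_le_iff]
  exact ⟨h 0, h 1, h 2⟩

lemma exists_natDegree_eq_maxDeg (p : Fin 3 → F[X]) : ∃ i, (p i).natDegree = maxDeg p := by
  unfold maxDeg
  rcases max_cases (p 0).natDegree (max (p 1).natDegree (p 2).natDegree) with h | h
  · exact ⟨0, h.1.symm⟩
  · rcases max_cases (p 1).natDegree (p 2).natDegree with h' | h'
    · exact ⟨1, by rw [h.1, h'.1]⟩
    · exact ⟨2, by rw [h.1, h'.1]⟩

/-- a triple is primitive if it generates the unit ideal -/
def IsPrim (p : Fin 3 → F[X]) : Prop := Ideal.span (Set.range p) = ⊤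

/-- degree bound for the value of a multivariate polynomial with constant coefficients -/
lemma natDegree_aeval_le {σ : Type*} (φ : MvPolynomial σ F) (p : σ → F[X]) (D : ℕ)
    (hp : ∀ i, (p i).natDegree ≤ D) :
    (MvPolynomial.aeval p φ).natDegree ≤ φ.totalDegree * D := by
  classical
  rw [MvPolynomial.aeval_def, MvPolynomial.eval₂_eq]
  refine natDegree_sum_le_of_forall_le _ _ fun m hm => ?_
  have h1 : (∏ i ∈ m.support, p i ^ m i).natDegree ≤ ∑ i ∈ m.support, m i * D := by
    refine (natDegree_prod_le _ _).trans (Finset.sum_le_sum fun i _ => ?_)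
    exact (natDegree_pow_le).trans (Nat.mul_le_mul_left _ (hp i))
  have h2 : ∑ i ∈ m.support, m i * D ≤ φ.totalDegree * D := by
    rw [← Finset.sum_mul]
    exact Nat.mul_le_mul_right _ (MvPolynomial.le_totalDegree hm)
  calc _ ≤ (algebraMap F F[X] (φ.coeff m)).natDegree + (∏ i ∈ m.support, p i ^ m i).natDegree := by
        exact natDegree_mul_le
    _ ≤ 0 + φ.totalDegree * D := by
        gcongr
        · simp
        · exact h1.trans h2
    _ = _ := by simp

/-! ### naturality of `addSubMap` and `addSubMapCoeff` -/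

section naturality

variable {R S : Type*} [CommRing R] [CommRing S] (f : R →+* S) (W : WeierstrassCurve R)

lemma addSubMap_map (i : Fin 3) :
    addSubMap (W.map f) i = MvPolynomial.map f (addSubMap W i) := by
  fin_cases i <;> simp [addSubMap, map_ofNat]

lemma addSubMapCoeff_map (ij : Fin 3 × Fin 3) :
    addSubMapCoeff (W.map f) ij = MvPolynomial.map f (addSubMapCoeff W ij) := by
  fin_cases ij <;> simp [addSubMapCoeff, map_ofNat]

end naturality

variable (W : WeierstrassCurve F)

/-- `addSubMap` applied to a polynomial triple -/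
noncomputable def asmP (p : Fin 3 → F[X]) : Fin 3 → F[X] :=
  fun i => MvPolynomial.aeval p (addSubMap W i)

lemma asmP_eq_eval (p : Fin 3 → F[X]) (i : Fin 3) :
    asmP W p i = (addSubMap (W.map (C : F →+* F[X])) i).eval p := by
  rw [asmP, addSubMap_map, MvPolynomial.eval_map, MvPolynomial.aeval_def]
  rfl

lemma natDegree_asmP_le (p : Fin 3 → F[X]) (i : Fin 3) :
    (asmP W p i).natDegree ≤ 2 * maxDeg p := by
  refine (natDegree_aeval_le _ p (maxDeg p) (natDegree_le_maxDeg p)).trans ?_
  exact Nat.mul_le_mul_right _ (isHomogeneous_addSubMap W i).totalDegree_le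

variable [W.IsElliptic]

/-- the key identity of Mathlib, over `F[X]` -/
lemma asmP_condition (p : Fin 3 → F[X]) (i : Fin 3) :
    ∃ c : Fin 3 → F[X], (∀ j, (c j).natDegree ≤ 2 * maxDeg p) ∧
      ∑ j, c j * asmP W p j = p i ^ 4 := by
  have key := addSubMapCoeff_condition (W.map (C : F →+* F[X])) p i
  refine ⟨fun j => (MvPolynomial.C (↑(W.map (C : F →+* F[X])).Δ'⁻¹ : F[X]) *
      addSubMapCoeff (W.map (C : F →+* F[X])) (i, j)).eval p, fun j => ?_, ?_⟩
  · show ((MvPolynomial.C (↑(W.map (C : F →+* F[X])).Δ'⁻¹ : F[X]) *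
      addSubMapCoeff (W.map (C : F →+* F[X])) (i, j)).eval p).natDegree ≤ 2 * maxDeg p
    rw [MvPolynomial.eval_mul, MvPolynomial.eval_C, addSubMapCoeff_map, MvPolynomial.eval_map]
    have hu : ((↑(W.map (C : F →+* F[X])).Δ'⁻¹ : F[X])).natDegree = 0 :=
      natDegree_eq_zero_of_isUnit (Units.isUnit _)
    refine natDegree_mul_le.trans ?_
    rw [hu, zero_add]
    have := natDegree_aeval_le (addSubMapCoeff W (i, j)) p (maxDeg p) (natDegree_le_maxDeg p)
    rw [MvPolynomial.aeval_def] at this
    refine this.trans ?_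
    exact Nat.mul_le_mul_right _ (isHomogeneous_addSubMapCoeff W (i, j)).totalDegree_le
  · simp only [asmP_eq_eval]
    exact key

/-- **Primitivity is preserved.** -/
theorem IsPrim.asmP {p : Fin 3 → F[X]} (hp : IsPrim p) : IsPrim (asmP W p) := by
  unfold IsPrim at hp ⊢
  rw [← Ideal.radical_eq_top, eq_top_iff, ← hp, Ideal.span_le]
  rintro _ ⟨i, rfl⟩
  refine ⟨4, ?_⟩
  obtain ⟨c, -, hc⟩ := asmP_condition W p i
  rw [← hc]
  refine Ideal.sum_mem _ fun j _ => Ideal.mul_mem_left _ _ (Ideal.subset_span ⟨j, rfl⟩)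

/-- **Exact degree doubling.** -/
theorem maxDeg_asmP (p : Fin 3 → F[X]) : maxDeg (asmP W p) = 2 * maxDeg p := by
  refine le_antisymm (maxDeg_le (natDegree_asmP_le W p)) ?_
  obtain ⟨i, hi⟩ := exists_natDegree_eq_maxDeg p
  obtain ⟨c, hcdeg, hc⟩ := asmP_condition W p i
  have h4 : (p i ^ 4).natDegree = 4 * maxDeg p := by rw [natDegree_pow, hi]
  have hle : (p i ^ 4).natDegree ≤ 2 * maxDeg p + maxDeg (asmP W p) := by
    rw [← hc]
    refine natDegree_sum_le_of_forall_le _ _ fun j _ => ?_
    exact natDegree_mul_le.trans (Nat.add_le_add (hcdeg j) (natDegree_le_maxDeg _ j))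
  omega

end Fermat.Agent.S52.H311
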