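import Fermat.Agent.S52.H311.Core

/-!
# Gauss lemma for products of two linear forms, and uniqueness of primitive representatives
(S52, A2a core, continued)
-/

set_option autoImplicit false

namespace Fermat.Agent.S52.H311

open Polynomial

variable {F : Type*} [Field F]

/-- the coefficient triple of `(a₁ T + b₁)(a₂ T + b₂)` -/
noncomputable def prodTriple (a₁ b₁ a₂ b₂ : F[X]) : Fin 3 → F[X] :=
  ![a₁ * a₂, a₁ * b₂ + b₁ * a₂, b₁ * b₂]

/-- degree of a pair -/
noncomputable def pairDeg (a b : F[X]) : ℕ := max a.natDegree b.natDegree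

theorem isPrim_prodTriple {a₁ b₁ a₂ b₂ : F[X]} (h₁ : IsCoprime a₁ b₁) (h₂ : IsCoprime a₂ b₂) :
    IsPrim (prodTriple a₁ b₁ a₂ b₂) := by
  unfold IsPrim
  set I := Ideal.span (Set.range (prodTriple a₁ b₁ a₂ b₂)) with hI
  have m0 : a₁ * a₂ ∈ I := Ideal.subset_span ⟨0, rfl⟩
  have m1 : a₁ * b₂ + b₁ * a₂ ∈ I := Ideal.subset_span ⟨1, rfl⟩
  have m2 : b₁ * b₂ ∈ I := Ideal.subset_span ⟨2, rfl⟩
  have r0 : a₁ * a₂ ∈ I.radical := Ideal.le_radical m0
  have r2 : b₁ * b₂ ∈ I.radical := Ideal.le_radical m2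
  have r1 : a₁ * b₂ ∈ I.radical := by
    refine ⟨2, ?_⟩
    have : (a₁ * b₂) ^ 2 = (a₁ * b₂) * (a₁ * b₂ + b₁ * a₂) - (a₁ * a₂) * (b₁ * b₂) := by ring
    rw [this]
    exact I.sub_mem (I.mul_mem_left _ m1) (I.mul_mem_right _ m0)
  have r1' : b₁ * a₂ ∈ I.radical := by
    refine ⟨2, ?_⟩
    have : (b₁ * a₂) ^ 2 = (b₁ * a₂) * (a₁ * b₂ + b₁ * a₂) - (a₁ * a₂) * (b₁ * b₂) := by ring
    rw [this]
    exact I.sub_mem (I.mul_mem_left _ m1) (I.mul_mem_right _ m0)
  obtain ⟨u₂, v₂, e₂⟩ := h₂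
  obtain ⟨u₁, v₁, e₁⟩ := h₁
  have ra : a₁ ∈ I.radical := by
    have : a₁ = u₂ * (a₁ * a₂) + v₂ * (a₁ * b₂) := by linear_combination -a₁ * e₂
    rw [this]
    exact I.radical.add_mem (I.radical.mul_mem_left _ r0) (I.radical.mul_mem_left _ r1)
  have rb : b₁ ∈ I.radical := by
    have : b₁ = u₂ * (b₁ * a₂) + v₂ * (b₁ * b₂) := by linear_combination -b₁ * e₂
    rw [this]
    exact I.radical.add_mem (I.radical.mul_mem_left _ r1') (I.radical.mul_mem_left _ r2)
  have r1 : (1 : F[X]) ∈ I.radical := by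
    rw [← e₁]
    exact I.radical.add_mem (I.radical.mul_mem_left _ ra) (I.radical.mul_mem_left _ rb)
  rw [← Ideal.radical_eq_top]
  exact (Ideal.eq_top_iff_one _).mpr r1

lemma coeff_pairDeg_ne_zero {a b : F[X]} (h : IsCoprime a b) :
    a.coeff (pairDeg a b) ≠ 0 ∨ b.coeff (pairDeg a b) ≠ 0 := by
  by_contra hcon
  push Not at hcon
  obtain ⟨ha, hb⟩ := hcon
  have hne : ¬ (a = 0 ∧ b = 0) := by
    rintro ⟨rfl, rfl⟩
    exact not_isCoprime_zero_zero h
  unfold pairDeg at ha hb
  rcases max_cases a.natDegree b.natDegree with ⟨hm, hle⟩ | ⟨hm, hlt⟩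
  · rw [hm] at ha hb
    have a0 : a = 0 := leadingCoeff_eq_zero.mp ha
    rw [a0, natDegree_zero] at hle
    have b0 : b = 0 := by
      rw [eq_C_of_natDegree_le_zero hle]
      rw [a0, natDegree_zero] at hb
      simp [hb]
    exact hne ⟨a0, b0⟩
  · rw [hm] at ha hb
    have b0 : b = 0 := leadingCoeff_eq_zero.mp hb
    rw [b0, natDegree_zero] at hlt
    exact absurd hlt (Nat.not_lt_zero _)

theorem maxDeg_prodTriple {a₁ b₁ a₂ b₂ : F[X]} (h₁ : IsCoprime a₁ b₁) (h₂ : IsCoprime a₂ b₂) :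
    maxDeg (prodTriple a₁ b₁ a₂ b₂) = pairDeg a₁ b₁ + pairDeg a₂ b₂ := by
  set d₁ := pairDeg a₁ b₁ with hd₁
  set d₂ := pairDeg a₂ b₂ with hd₂
  have ha₁ : a₁.natDegree ≤ d₁ := le_max_left _ _
  have hb₁ : b₁.natDegree ≤ d₁ := le_max_right _ _
  have ha₂ : a₂.natDegree ≤ d₂ := le_max_left _ _
  have hb₂ : b₂.natDegree ≤ d₂ := le_max_right _ _
  refine le_antisymm (maxDeg_le fun i => ?_) ?_
  · fin_cases i
    · exact natDegree_mul_le.trans (Nat.add_le_add ha₁ ha₂)
    · refine (natDegree_add_le _ _).trans (max_le ?_ ?_)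
      · exact natDegree_mul_le.trans (Nat.add_le_add ha₁ hb₂)
      · exact natDegree_mul_le.trans (Nat.add_le_add hb₁ ha₂)
    · exact natDegree_mul_le.trans (Nat.add_le_add hb₁ hb₂)
  · have c0 : (a₁ * a₂).coeff (d₁ + d₂) = a₁.coeff d₁ * a₂.coeff d₂ :=
      coeff_mul_add_eq_of_natDegree_le ha₁ ha₂
    have c2 : (b₁ * b₂).coeff (d₁ + d₂) = b₁.coeff d₁ * b₂.coeff d₂ :=
      coeff_mul_add_eq_of_natDegree_le hb₁ hb₂
    have c1 : (a₁ * b₂ + b₁ * a₂).coeff (d₁ + d₂) =
        a₁.coeff d₁ * b₂.coeff d₂ + b₁.coeff d₁ * a₂.coeff d₂ := by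
      rw [coeff_add, coeff_mul_add_eq_of_natDegree_le ha₁ hb₂, coeff_mul_add_eq_of_natDegree_le hb₁ ha₂]
    have key : ∃ i, (prodTriple a₁ b₁ a₂ b₂ i).coeff (d₁ + d₂) ≠ 0 := by
      by_contra hcon
      push Not at hcon
      have e0 := hcon 0
      have e1 := hcon 1
      have e2 := hcon 2
      simp only [prodTriple, Matrix.cons_val_zero, Matrix.cons_val_one, Matrix.cons_val] at e0 e1 e2
      rw [c0] at e0
      rw [c1] at e1
      rw [c2] at e2
      rcases coeff_pairDeg_ne_zero h₁ with hα₁ | hβ₁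
      · have hα₂ : a₂.coeff d₂ = 0 := by
          rcases mul_eq_zero.mp e0 with h | h
          · exact absurd h hα₁
          · exact h
        have hβ₂ : b₂.coeff d₂ ≠ 0 := by
          rcases coeff_pairDeg_ne_zero h₂ with h | h
          · exact absurd hα₂ h
          · exact h
        rw [hα₂, mul_zero, add_zero] at e1
        rcases mul_eq_zero.mp e1 with h | h
        · exact hα₁ h
        · exact hβ₂ h
      · have hβ₂ : b₂.coeff d₂ = 0 := by
          rcases mul_eq_zero.mp e2 with h | h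
          · exact absurd h hβ₁
          · exact h
        have hα₂ : a₂.coeff d₂ ≠ 0 := by
          rcases coeff_pairDeg_ne_zero h₂ with h | h
          · exact h
          · exact absurd hβ₂ h
        rw [hβ₂, mul_zero, zero_add] at e1
        rcases mul_eq_zero.mp e1 with h | h
        · exact hβ₁ h
        · exact hα₂ h
    obtain ⟨i, hi⟩ := key
    exact (le_natDegree_of_ne_zero hi).trans (natDegree_le_maxDeg _ i)

/-- two primitive triples which are projectively equal have the same `maxDeg` -/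
theorem maxDeg_eq_of_proportional {p p' : Fin 3 → F[X]} (hp : IsPrim p) (hp' : IsPrim p')
    (h : ∀ i j, p i * p' j = p j * p' i) : maxDeg p = maxDeg p' := by
  have one_mem : (1 : F[X]) ∈ Ideal.span (Set.range p) := by rw [hp]; trivial
  have one_mem' : (1 : F[X]) ∈ Ideal.span (Set.range p') := by rw [hp']; trivial
  obtain ⟨r, hr⟩ := (Ideal.mem_span_range_iff_exists_fun).mp one_mem
  obtain ⟨r', hr'⟩ := (Ideal.mem_span_range_iff_exists_fun).mp one_mem'
  -- `p j = u * p' j`, `p' j = u' * p j`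
  set u := ∑ i, r' i * p i with hu
  set u' := ∑ i, r i * p' i with hu'
  have e1 : ∀ j, p j = u * p' j := fun j => by
    calc p j = p j * ∑ i, r' i * p' i := by rw [hr', mul_one]
      _ = ∑ i, r' i * (p j * p' i) := by
          rw [Finset.mul_sum]; exact Finset.sum_congr rfl fun i _ => by ring
      _ = ∑ i, r' i * (p i * p' j) := Finset.sum_congr rfl fun i _ => by rw [h i j]
      _ = u * p' j := by
          rw [hu, Finset.sum_mul]; exact Finset.sum_congr rfl fun i _ => by ring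
  have e2 : ∀ j, p' j = u' * p j := fun j => by
    calc p' j = p' j * ∑ i, r i * p i := by rw [hr, mul_one]
      _ = ∑ i, r i * (p i * p' j) := by
          rw [Finset.mul_sum]; exact Finset.sum_congr rfl fun i _ => by ring
      _ = ∑ i, r i * (p j * p' i) := Finset.sum_congr rfl fun i _ => by rw [h i j]
      _ = u' * p j := by
          rw [hu', Finset.sum_mul]; exact Finset.sum_congr rfl fun i _ => by ring
  refine le_antisymm (maxDeg_le fun j => ?_) (maxDeg_le fun j => ?_)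
  · by_cases hj : p j = 0
    · simp [hj]
    · have hne : p' j ≠ 0 := fun h0 => hj (by rw [e1 j, h0, mul_zero])
      have hdeg : (p' j).natDegree = (u' * p j).natDegree := by rw [← e2 j]
      have hu0 : u' ≠ 0 := fun h0 => hne (by rw [e2 j, h0, zero_mul])
      rw [natDegree_mul hu0 hj] at hdeg
      exact (by omega : (p j).natDegree ≤ (p' j).natDegree).trans (natDegree_le_maxDeg _ j)
  · by_cases hj : p' j = 0
    · simp [hj]
    · have hne : p j ≠ 0 := fun h0 => hj (by rw [e2 j, h0, mul_zero])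
      have hdeg : (p j).natDegree = (u * p' j).natDegree := by rw [← e1 j]
      have hu0 : u ≠ 0 := fun h0 => hne (by rw [e1 j, h0, zero_mul])
      rw [natDegree_mul hu0 hj] at hdeg
      exact (by omega : (p' j).natDegree ≤ (p j).natDegree).trans (natDegree_le_maxDeg _ j)

end Fermat.Agent.S52.H311
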