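import Fermat.Agent.S52.H311.AddSub
import Fermat.Agent.S52.H311.Gauss

/-!
# Exact parallelogram law for the degree height (S52, piece A2a)

`F` a field, `W` an elliptic curve over `F`, `K ⊇ F` a field, `j : F[X] →ₐ[F] K` injective
(e.g. `aeval x₀` with `x₀` transcendental).  A point `P` of `W` over `K` has `x`-coordinate
*represented by* a coprime pair `(a, b)` of polynomials if `(j a : j b)` is projectively equal to
`P.xRep` (so `P = 0 ↔ b = 0`, and otherwise `x(P) = j a / j b`).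

If `P`, `Q`, `P + Q`, `P - Q` have represented `x`-coordinates then the degrees satisfy the
**exact** parallelogram law.
-/

set_option autoImplicit false

namespace Fermat.Agent.S52.H311

open Polynomial WeierstrassCurve WeierstrassCurve.Affine

variable {F : Type*} [Field F] {K : Type*} [Field K] [Algebra F K]

/-- explicit form of `addSubMap`, any commutative ring -/
lemma eval_addSubMap_ring {R : Type*} [CommRing R] (W : WeierstrassCurve R) (v : Fin 3 → R) :
    (fun i => (addSubMap W i).eval v) =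
      ![v 0 ^ 2 - W.b₄ * v 0 * v 2 - W.b₆ * v 1 * v 2 - W.b₈ * v 2 ^ 2,
        2 * v 1 * v 0 + W.b₂ * v 0 * v 2 + W.b₄ * v 1 * v 2 + W.b₆ * v 2 ^ 2,
        v 1 ^ 2 - 4 * v 0 * v 2] := by
  funext i
  fin_cases i <;> simp [addSubMap]

/-- `(a, b)` represents the `x`-coordinate of `P` -/
def IsXRep (j : F[X] →ₐ[F] K) {W : Affine K} (P : W.Point) (a b : F[X]) : Prop :=
  IsCoprime a b ∧ ∃ c : K, c ≠ 0 ∧ ![j a, j b] = c • P.xRep

variable (W : WeierstrassCurve F) (j : F[X] →ₐ[F] K)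

/-- naturality: `j` of `asmP` is `addSubMap` over `K` of the `j`-image -/
lemma j_asmP (p : Fin 3 → F[X]) :
    (fun i => j (asmP W p i)) =
      fun i => (addSubMap (W.baseChange K) i).eval (fun k => j (p k)) := by
  have h1 : (fun i => asmP W p i) = fun i => (addSubMap (W.map (C : F →+* F[X])) i).eval p :=
    funext fun i => asmP_eq_eval W p i
  have h2 := eval_addSubMap_ring (W.map (C : F →+* F[X])) p
  have h3 := eval_addSubMap_ring (W.baseChange K) (fun k => j (p k))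
  rw [h3]
  have hC : ∀ a : F, j (C a) = algebraMap F K a := fun a => j.commutes a
  funext i
  have := congrFun (h1.trans h2) i
  rw [this]
  fin_cases i <;>
    simp [WeierstrassCurve.baseChange, map_b₂, map_b₄, map_b₆, map_b₈, hC, map_ofNat]

variable {W j}

lemma sym2x_of_isXRep {W' : Affine K} {P Q : W'.Point} {a₁ b₁ a₂ b₂ : F[X]}
    (h₁ : IsXRep j P a₁ b₁) (h₂ : IsXRep j Q a₂ b₂) :
    ∃ c : K, c ≠ 0 ∧ (fun k => j (prodTriple a₁ b₁ a₂ b₂ k)) = c • P.sym2x Q := by
  obtain ⟨-, c₁, hc₁, e₁⟩ := h₁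
  obtain ⟨-, c₂, hc₂, e₂⟩ := h₂
  refine ⟨c₁ * c₂, mul_ne_zero hc₁ hc₂, ?_⟩
  have e10 : j a₁ = c₁ * P.xRep 0 := by simpa using congrFun e₁ 0
  have e11 : j b₁ = c₁ * P.xRep 1 := by simpa using congrFun e₁ 1
  have e20 : j a₂ = c₂ * Q.xRep 0 := by simpa using congrFun e₂ 0
  have e21 : j b₂ = c₂ * Q.xRep 1 := by simpa using congrFun e₂ 1
  funext k
  fin_cases k
  · simp [prodTriple, Point.sym2x, e10, e20]; ring
  · simp [prodTriple, Point.sym2x, e10, e11, e20, e21]; ring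
  · simp [prodTriple, Point.sym2x, e11, e21]; ring

variable [W.IsElliptic] [DecidableEq K]

/-- **Exact parallelogram law**, in terms of representatives. -/
theorem pairDeg_add_sub (hj : Function.Injective j) {P Q : (W.toAffine⁄K).Point}
    {a₁ b₁ a₂ b₂ a₃ b₃ a₄ b₄ : F[X]}
    (h₁ : IsXRep j P a₁ b₁) (h₂ : IsXRep j Q a₂ b₂)
    (h₃ : IsXRep j (P + Q) a₃ b₃) (h₄ : IsXRep j (P - Q) a₄ b₄) :
    pairDeg a₃ b₃ + pairDeg a₄ b₄ = 2 * (pairDeg a₁ b₁ + pairDeg a₂ b₂) := by
  set p := asmP W (prodTriple a₁ b₁ a₂ b₂) with hp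
  set p' := prodTriple a₃ b₃ a₄ b₄ with hp'
  have prim : IsPrim p := (isPrim_prodTriple h₁.1 h₂.1).asmP W
  have prim' : IsPrim p' := isPrim_prodTriple h₃.1 h₄.1
  obtain ⟨c₁₂, hc₁₂, e₁₂⟩ := sym2x_of_isXRep h₁ h₂
  obtain ⟨c₃₄, hc₃₄, e₃₄⟩ := sym2x_of_isXRep h₃ h₄
  obtain ⟨c, hc, e⟩ := sym2x_add_sub P Q
  -- `j ∘ p = κ • j ∘ p'`
  have hκ : (fun k => j (p k)) = (c₁₂ ^ 2 * c * c₃₄⁻¹) • fun k => j (p' k) := by
    rw [hp, j_asmP, e₁₂, e₃₄]
    have hE := eval_addSubMap_ring (W.baseChange K) (c₁₂ • P.sym2x Q)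
    have hE' := eval_addSubMap_ring (W.baseChange K) (P.sym2x Q)
    rw [hE]
    rw [hE'] at e
    have e0 := congrFun e 0
    have e1 := congrFun e 1
    have e2 := congrFun e 2
    simp only [Matrix.cons_val_zero, Matrix.cons_val_one, Matrix.cons_val, Pi.smul_apply,
      smul_eq_mul] at e0 e1 e2
    have hcancel : c₃₄⁻¹ * c₃₄ = 1 := inv_mul_cancel₀ hc₃₄
    funext k
    fin_cases k
    · simp only [Fin.zero_eta, Matrix.cons_val_zero, Pi.smul_apply, smul_eq_mul]
      linear_combination c₁₂ ^ 2 * e0 -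
        (c₁₂ ^ 2 * c * (P + Q).sym2x (P - Q) 0) * hcancel
    · simp only [Fin.mk_one, Matrix.cons_val_one, Matrix.cons_val_zero, Pi.smul_apply,
        smul_eq_mul]
      linear_combination c₁₂ ^ 2 * e1 -
        (c₁₂ ^ 2 * c * (P + Q).sym2x (P - Q) 1) * hcancel
    · simp only [Fin.reduceFinMk, Matrix.cons_val, Pi.smul_apply, smul_eq_mul]
      linear_combination c₁₂ ^ 2 * e2 -
        (c₁₂ ^ 2 * c * (P + Q).sym2x (P - Q) 2) * hcancel
  have cross : ∀ i k, p i * p' k = p k * p' i := fun i k => by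
    apply hj
    have hi := congrFun hκ i
    have hk := congrFun hκ k
    simp only [Pi.smul_apply, smul_eq_mul] at hi hk
    rw [map_mul, map_mul, hi, hk]
    ring
  have key := maxDeg_eq_of_proportional prim prim' cross
  rw [hp, maxDeg_asmP, maxDeg_prodTriple h₁.1 h₂.1, hp', maxDeg_prodTriple h₃.1 h₄.1] at key
  exact key.symm

end Fermat.Agent.S52.H311
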